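import Mathlib

/-!
# S25, block D2: sections of a base change over the preimage of an affine set
-/

set_option autoImplicit false

noncomputable section

universe u

open CategoryTheory CategoryTheory.Limits AlgebraicGeometry TopologicalSpace Opposite
open scoped TensorProduct

namespace Fermat.Agent.JCB

section Tensor

variable {k B S Z : Type*} [CommRing k] [CommRing B] [CommRing S] [CommRing Z] [Algebra k B]
  [Algebra k S]

/-- the homomorphism `b ⊗ s ↦ f b * g s` -/
def tlift (f : B →+* Z) (g : S →+* Z)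
    (h : f.comp (algebraMap k B) = g.comp (algebraMap k S)) : B ⊗[k] S →+* Z :=
  letI : Algebra k Z := (f.comp (algebraMap k B)).toAlgebra
  (Algebra.TensorProduct.productMap
    ({ f with commutes' := fun _ => rfl } : B →ₐ[k] Z)
    ({ g with commutes' := fun r => (DFunLike.congr_fun h r).symm } : S →ₐ[k] Z)).toRingHom

@[simp] theorem tlift_tmul (f : B →+* Z) (g : S →+* Z)
    (h : f.comp (algebraMap k B) = g.comp (algebraMap k S)) (b : B) (s : S) :
    tlift f g h (b ⊗ₜ s) = f b * g s := rfl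

/-- two ring homomorphisms from a tensor product agree if they agree on both factors -/
theorem tensor_ringHom_ext {φ ψ : B ⊗[k] S →+* Z} (h1 : ∀ b : B, φ (b ⊗ₜ 1) = ψ (b ⊗ₜ 1))
    (h2 : ∀ s : S, φ (1 ⊗ₜ s) = ψ (1 ⊗ₜ s)) : φ = ψ := by
  refine RingHom.ext fun t => ?_
  induction t using TensorProduct.induction_on with
  | zero => rw [map_zero, map_zero]
  | add a b ha hb => rw [map_add, map_add, ha, hb]
  | tmul b s =>
    have : b ⊗ₜ[k] s = b ⊗ₜ 1 * 1 ⊗ₜ s := by
      rw [Algebra.TensorProduct.tmul_mul_tmul, mul_one, one_mul]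
    rw [this, map_mul, map_mul, h1, h2]

end Tensor

section Sec

variable {R : Type u} [CommRing R] {X Y : Scheme.{u}}

/-- the structure map of the ring of sections of a scheme over `Spec R` -/
def sSec (f : X ⟶ Spec (CommRingCat.of R)) (U : X.Opens) : R →+* Γ(X, U) :=
  ((Scheme.ΓSpecIso (CommRingCat.of R)).inv ≫ f.appTop ≫
    X.presheaf.map (homOfLE le_top).op).hom

theorem ofHom_sSec (f : X ⟶ Spec (CommRingCat.of R)) (U : X.Opens) :
    CommRingCat.ofHom (sSec f U) = (Scheme.ΓSpecIso (CommRingCat.of R)).inv ≫ f.appTop ≫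
      X.presheaf.map (homOfLE le_top).op := rfl

theorem res_sSec (f : X ⟶ Spec (CommRingCat.of R)) {U V : X.Opens} (i : V ⟶ U) (r : R) :
    X.presheaf.map i.op (sSec f U r) = sSec f V r := by
  unfold sSec
  rw [← CommRingCat.comp_apply]
  congr 2
  simp only [Category.assoc]
  rw [← X.presheaf.map_comp]
  rfl

theorem appLE_sSec (g : Y ⟶ X) (f : X ⟶ Spec (CommRingCat.of R)) (U : X.Opens) (V : Y.Opens)
    (e : V ≤ g ⁻¹ᵁ U) (r : R) : g.appLE U V e (sSec f U r) = sSec (g ≫ f) V r := by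
  unfold sSec
  rw [← CommRingCat.comp_apply]
  congr 2
  rw [Scheme.Hom.comp_appTop]
  simp only [Category.assoc]
  rw [Scheme.Hom.map_appLE]
  rfl

theorem app_sSec (g : Y ⟶ X) (f : X ⟶ Spec (CommRingCat.of R)) (U : X.Opens) (r : R) :
    g.app U (sSec f U r) = sSec (g ≫ f) (g ⁻¹ᵁ U) r := by
  rw [← appLE_sSec g f U (g ⁻¹ᵁ U) le_rfl r, Scheme.Hom.appLE_eq_app]

theorem sSec_comp_specMap {R' : Type u} [CommRing R'] (f : X ⟶ Spec (CommRingCat.of R'))
    (φ : R →+* R') (U : X.Opens) (r : R) :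
    sSec (f ≫ Spec.map (CommRingCat.ofHom φ)) U r = sSec f U (φ r) := by
  unfold sSec
  have h1 : (Scheme.ΓSpecIso (CommRingCat.of R)).inv ≫ (Spec.map (CommRingCat.ofHom φ)).appTop =
      CommRingCat.ofHom φ ≫ (Scheme.ΓSpecIso (CommRingCat.of R')).inv := by
    rw [Iso.inv_comp_eq, ← Scheme.ΓSpecIso_naturality_assoc, Iso.hom_inv_id, Category.comp_id]
  rw [Scheme.Hom.comp_appTop]
  simp only [Category.assoc]
  rw [reassoc_of% h1]
  rfl

end Sec

section Main

variable {k : Type u} [CommRing k] {B : Type u} [CommRing B] [Algebra k B]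
  {C Y : Scheme.{u}} {c : C ⟶ Spec (CommRingCat.of k)} {fst : Y ⟶ C}
  {snd : Y ⟶ Spec (CommRingCat.of B)}
  (w : fst ≫ c = snd ≫ Spec.map (CommRingCat.ofHom (algebraMap k B)))
  (U : C.Opens) {S : Type u} [CommRing S] [Algebra k S] (σ : S →+* Γ(C, U))
  (hσ : σ.comp (algebraMap k S) = sSec c U)

include w hσ in
theorem mu_aux : (sSec snd (fst ⁻¹ᵁ U)).comp (algebraMap k B) =
    ((fst.app U).hom.comp σ).comp (algebraMap k S) := by
  ext r
  have h1 : σ (algebraMap k S r) = sSec c U r := DFunLike.congr_fun hσ r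
  simp only [RingHom.comp_apply]
  rw [h1]
  erw [app_sSec fst c U r]
  rw [w, sSec_comp_specMap]

/-- `b ⊗ s ↦ b • fst^* s` -/
def mu : B ⊗[k] S →+* Γ(Y, fst ⁻¹ᵁ U) :=
  tlift (sSec snd (fst ⁻¹ᵁ U)) ((fst.app U).hom.comp σ) (mu_aux w U σ hσ)

theorem mu_tmul (b : B) (s : S) :
    mu w U σ hσ (b ⊗ₜ s) = sSec snd (fst ⁻¹ᵁ U) b * fst.app U (σ s) := rfl

omit w in
/-- `Γ(C_B, U_B) = B ⊗ Γ(C, U)` for affine `U` -/
theorem mu_bijective
    (H : IsPullback fst snd c (Spec.map (CommRingCat.ofHom (algebraMap k B))))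
    (hU : IsAffineOpen U) (hσb : Function.Bijective σ) :
    Function.Bijective (mu H.w U σ hσ) := by
  have h1 : IsIso (pushoutSection (US := ⊤) (UT := ⊤) (UX := U) (UY := fst ⁻¹ᵁ U) H le_top le_top
      (by rw [Scheme.Hom.preimage_top, inf_top_eq])) :=
    isIso_pushoutSection_of_isAffineOpen H _ _ _ (isAffineOpen_top _) (isAffineOpen_top _) hU
  rw [isIso_pushoutSection_iff] at h1
  let eS : CommRingCat.of S ≅ Γ(C, U) := (RingEquiv.ofBijective σ hσb).toCommRingCatIso
  have h2 : IsPushout (CommRingCat.ofHom (algebraMap k B)) (CommRingCat.ofHom (algebraMap k S))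
      (CommRingCat.ofHom (sSec snd (fst ⁻¹ᵁ U))) (CommRingCat.ofHom ((fst.app U).hom.comp σ)) := by
    refine IsPushout.of_iso h1.flip (Scheme.ΓSpecIso (CommRingCat.of k))
      (Scheme.ΓSpecIso (CommRingCat.of B)) eS.symm (Iso.refl _) ?_ ?_ ?_ ?_
    · rw [← Scheme.ΓSpecIso_naturality]
      exact congrArg (· ≫ (Scheme.ΓSpecIso (CommRingCat.of B)).hom)
        (Scheme.Hom.appLE_eq_app (Spec.map (CommRingCat.ofHom (algebraMap k B))))
    · rw [Iso.symm_hom, Iso.comp_inv_eq, Category.assoc]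
      have h3 : CommRingCat.ofHom (algebraMap k S) ≫ eS.hom = CommRingCat.ofHom (sSec c U) := by
        rw [← hσ]
        rfl
      rw [h3, ofHom_sSec, Iso.hom_inv_id_assoc]
      rfl
    · rw [ofHom_sSec, Iso.hom_inv_id_assoc, Iso.refl_hom, Category.comp_id]
      rfl
    · rw [Iso.symm_hom, Iso.refl_hom, Category.comp_id, Iso.eq_inv_comp, Scheme.Hom.appLE_eq_app]
      rfl
  let e := (CommRingCat.isPushout_tensorProduct k B S).isoIsPushout _ _ h2
  have h3 : e.hom.hom = mu H.w U σ hσ := by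
    apply tensor_ringHom_ext
    · intro b
      rw [mu_tmul, map_one, map_one, mul_one]
      exact congrArg (fun f : CommRingCat.of B ⟶ Γ(Y, fst ⁻¹ᵁ U) => f.hom b)
        (IsPushout.inl_isoIsPushout_hom _ _ (CommRingCat.isPushout_tensorProduct k B S) h2)
    · intro b
      rw [mu_tmul, map_one, one_mul]
      exact congrArg (fun f : CommRingCat.of S ⟶ Γ(Y, fst ⁻¹ᵁ U) => f.hom b)
        (IsPushout.inr_isoIsPushout_hom _ _ (CommRingCat.isPushout_tensorProduct k B S) h2)
  rw [← h3]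
  exact e.commRingCatIsoToRingEquiv.bijective

/-- the isomorphism `B ⊗ S ≃ Γ(C_B, U_B)` -/
def muEquiv
    (H : IsPullback fst snd c (Spec.map (CommRingCat.ofHom (algebraMap k B))))
    (hU : IsAffineOpen U) (hσb : Function.Bijective σ) : B ⊗[k] S ≃+* Γ(Y, fst ⁻¹ᵁ U) :=
  RingEquiv.ofBijective (mu H.w U σ hσ) (mu_bijective U σ hσ H hU hσb)

omit w hσ in
theorem isAffineOpen_preimage
    (H : IsPullback fst snd c (Spec.map (CommRingCat.ofHom (algebraMap k B))))
    (hU : IsAffineOpen U) : IsAffineOpen (fst ⁻¹ᵁ U) := by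
  have : IsAffineHom fst := MorphismProperty.of_isPullback H.flip inferInstance
  exact hU.preimage fst

section Res

variable {V : C.Opens} {S' : Type u} [CommRing S'] [Algebra k S'] (σ' : S' →+* Γ(C, V))
  (hσ' : σ'.comp (algebraMap k S') = sSec c V)

/-- naturality in `U` -/
theorem mu_res (i : V ⟶ U) (ρ : S →ₐ[k] S') (hρ : ∀ s, C.presheaf.map i.op (σ s) = σ' (ρ s))
    (x : B ⊗[k] S) :
    Y.presheaf.map (homOfLE (fst.preimage_mono i.le)).op (mu w U σ hσ x) =
      mu w V σ' hσ' (Algebra.TensorProduct.map (AlgHom.id k B) ρ x) := by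
  have : (Y.presheaf.map (homOfLE (fst.preimage_mono i.le)).op).hom.comp (mu w U σ hσ) =
      (mu w V σ' hσ').comp (Algebra.TensorProduct.map (AlgHom.id k B) ρ).toRingHom := by
    apply tensor_ringHom_ext
    · intro b
      simp only [RingHom.comp_apply]
      show _ = mu w V σ' hσ' (Algebra.TensorProduct.map (AlgHom.id k B) ρ (b ⊗ₜ 1))
      rw [Algebra.TensorProduct.map_tmul, mu_tmul, mu_tmul, map_one, map_one, map_one, mul_one,
        map_one, map_one, mul_one]
      exact res_sSec snd _ b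
    · intro s
      simp only [RingHom.comp_apply]
      show _ = mu w V σ' hσ' (Algebra.TensorProduct.map (AlgHom.id k B) ρ (1 ⊗ₜ s))
      rw [Algebra.TensorProduct.map_tmul, mu_tmul, mu_tmul, map_one, map_one, map_one, one_mul,
        one_mul, ← hρ]
      have h3 := congrArg (fun f => f.hom (σ s)) (Scheme.Hom.naturality fst i.op)
      exact h3.symm
  exact DFunLike.congr_fun this x

end Res

section Base

variable {B' : Type u} [CommRing B'] [Algebra k B'] {Y' : Scheme.{u}} {fst' : Y' ⟶ C}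
  {snd' : Y' ⟶ Spec (CommRingCat.of B')}
  (w' : fst' ≫ c = snd' ≫ Spec.map (CommRingCat.ofHom (algebraMap k B')))

/-- naturality in `B` -/
theorem mu_base (φ : B →ₐ[k] B') (g : Y' ⟶ Y) (h1 : g ≫ fst = fst')
    (h2 : g ≫ snd = snd' ≫ Spec.map (CommRingCat.ofHom φ.toRingHom))
    (e : fst' ⁻¹ᵁ U ≤ g ⁻¹ᵁ fst ⁻¹ᵁ U) (x : B ⊗[k] S) :
    g.appLE (fst ⁻¹ᵁ U) (fst' ⁻¹ᵁ U) e (mu w U σ hσ x) =
      mu w' U σ hσ (Algebra.TensorProduct.map φ (AlgHom.id k S) x) := by
  have : (g.appLE (fst ⁻¹ᵁ U) (fst' ⁻¹ᵁ U) e).hom.comp (mu w U σ hσ) =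
      (mu w' U σ hσ).comp (Algebra.TensorProduct.map φ (AlgHom.id k S)).toRingHom := by
    apply tensor_ringHom_ext
    · intro b
      simp only [RingHom.comp_apply]
      show _ = mu w' U σ hσ (Algebra.TensorProduct.map φ (AlgHom.id k S) (b ⊗ₜ 1))
      rw [Algebra.TensorProduct.map_tmul, mu_tmul, mu_tmul, map_one, map_one, map_one, mul_one,
        map_one, map_one, mul_one]
      refine (appLE_sSec g snd _ _ e b).trans ?_
      rw [h2]
      exact sSec_comp_specMap snd' φ.toRingHom _ b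
    · intro s
      simp only [RingHom.comp_apply]
      show _ = mu w' U σ hσ (Algebra.TensorProduct.map φ (AlgHom.id k S) (1 ⊗ₜ s))
      rw [Algebra.TensorProduct.map_tmul, mu_tmul, mu_tmul, map_one, map_one, map_one, one_mul,
        one_mul]
      subst h1
      have h4 : g.appLE (fst ⁻¹ᵁ U) ((g ≫ fst) ⁻¹ᵁ U) e = g.app (fst ⁻¹ᵁ U) :=
        Scheme.Hom.appLE_eq_app g
      rw [h4, Scheme.Hom.comp_app g fst U]
      rfl
  exact DFunLike.congr_fun this x

end Base

end Main

end Fermat.Agent.JCB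

end
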