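import Fermat.Agent.JCB.Basic
import Fermat.Agent.JPC.Defs
import Fermat.Prelude.Def_AlgebraicGeometry_RelativePicardFunctor

/-!
# S25, block D: the two charts of a curve
-/

set_option autoImplicit false

noncomputable section

universe u

open CategoryTheory CategoryTheory.Limits AlgebraicGeometry TopologicalSpace Opposite
open NeronModelInfra AlgebraicGeometry.RelPicard
open scoped TensorProduct

namespace Fermat.Agent.JCB

open Fermat.Agent.JPC

variable {k : Type u} [Field k] {C : Scheme.{u}}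

/-- `X` is the two-chart algebra of the curve `C` -/
structure Chart (c : C ⟶ Spec (CommRingCat.of k))
    (ε : SchemeHomOver (𝟙 (Spec (CommRingCat.of k))) c) (X : TwoChart k) where
  U : C.Opens
  V : C.Opens
  hU : IsAffineOpen U
  hV : IsAffineOpen V
  cov : U ⊔ V = ⊤
  /-- `A = Γ(U ∩ V)` -/
  s : X.A →+* Γ(C, U ⊓ V)
  s_bij : Function.Bijective s
  s_k : s.comp (algebraMap k X.A) = sSec c (U ⊓ V)
  /-- `A0 = Γ(U)` -/
  s0 : X.A0 →+* Γ(C, U)
  s0_bij : Function.Bijective s0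
  s0_res : ∀ a : X.A0, C.presheaf.map (homOfLE (inf_le_left : U ⊓ V ≤ U)).op (s0 a) = s a
  /-- `A1 = Γ(V)` -/
  s1 : X.A1 →+* Γ(C, V)
  s1_bij : Function.Bijective s1
  s1_res : ∀ a : X.A1, C.presheaf.map (homOfLE (inf_le_right : U ⊓ V ≤ V)).op (s1 a) = s a
  s0_k : s0.comp (algebraMap k X.A0) = sSec c U
  s1_k : s1.comp (algebraMap k X.A1) = sSec c V
  basic0 : U ⊓ V = C.basicOpen (s0 ⟨X.t, X.t_mem⟩)
  basic1 : U ⊓ V = C.basicOpen (s1 ⟨((X.t⁻¹ : X.Aˣ) : X.A), X.tinv_mem⟩)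
  mem_U : ε.1 ⁻¹ᵁ U = ⊤
  ev_spec : ∀ a : X.A0, ε.1.appLE U ⊤ mem_U.ge (s0 a) =
    (Scheme.ΓSpecIso (CommRingCat.of k)).inv (X.ev a)

end Fermat.Agent.JCB

end
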