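import Fermat.Agent.JCB.Chart

/-!
# S25, block D2: the two charts of the base change `C_B`
-/

set_option autoImplicit false

noncomputable section

universe u

open CategoryTheory CategoryTheory.Limits AlgebraicGeometry TopologicalSpace Opposite
open NeronModelInfra AlgebraicGeometry.RelPicard
open scoped TensorProduct

namespace Fermat.Agent.JCB

open Fermat.Agent.JPC

section General

variable {k : Type u} [CommRing k] {C : Scheme.{u}} (c : C ⟶ Spec (CommRingCat.of k))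
  (B : Type u) [CommRing B] [Algebra k B]

/-- `Spec B ⟶ Spec k` -/
abbrev sB (k : Type u) [CommRing k] (B : Type u) [CommRing B] [Algebra k B] :
    Spec (CommRingCat.of B) ⟶ Spec (CommRingCat.of k) :=
  Spec.map (CommRingCat.ofHom (algebraMap k B))

/-- `C_B` -/
abbrev CB : Scheme.{u} := pullback c (sB k B)

/-- `C_B ⟶ C` -/
abbrev pr : CB c B ⟶ C := pullback.fst c (sB k B)

/-- `C_B ⟶ Spec B` -/
abbrev qr : CB c B ⟶ Spec (CommRingCat.of B) := pullback.snd c (sB k B)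

theorem w_B : pr c B ≫ c = qr c B ≫ Spec.map (CommRingCat.ofHom (algebraMap k B)) :=
  pullback.condition

theorem isPullback_B : IsPullback (pr c B) (qr c B) c
    (Spec.map (CommRingCat.ofHom (algebraMap k B))) := IsPullback.of_hasPullback _ _

theorem isAffineOpen_pr {U : C.Opens} (hU : IsAffineOpen U) : IsAffineOpen (pr c B ⁻¹ᵁ U) :=
  isAffineOpen_preimage U (isPullback_B c B) hU

/-- the base change of a subset containing a section -/
theorem rigSection_preimage (ε : SchemeHomOver (𝟙 (Spec (CommRingCat.of k))) c) {U : C.Opens}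
    (h : ε.1 ⁻¹ᵁ U = ⊤) : rigSection c (sB k B) ε ⁻¹ᵁ (pr c B ⁻¹ᵁ U) = ⊤ := by
  rw [← Scheme.Hom.comp_preimage]
  have : rigSection c (sB k B) ε ≫ pr c B = sB k B ≫ ε.1 := pullback.lift_fst _ _ _
  rw [this, Scheme.Hom.comp_preimage, h]
  rfl

variable {B} {U : C.Opens} {S : Type u} [CommRing S] [Algebra k S] (σ : S →+* Γ(C, U))
  (hσ : σ.comp (algebraMap k S) = sSec c U)

/-- congruence for `appLE` -/
theorem appLE_congr_hom {X Y : Scheme.{u}} {f g : X ⟶ Y} (h : f = g) {U : Y.Opens} {V : X.Opens}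
    (e : V ≤ f ⁻¹ᵁ U) (a : Γ(Y, U)) :
    f.appLE U V e a = g.appLE U V (by rw [← h]; exact e) a := by subst h; rfl

theorem appLE_appLE {X Y Z : Scheme.{u}} (f : X ⟶ Y) (g : Y ⟶ Z) {U : Z.Opens} {V : Y.Opens}
    {W : X.Opens} (e₁ : V ≤ g ⁻¹ᵁ U) (e₂ : W ≤ f ⁻¹ᵁ V) (e₃ : W ≤ (f ≫ g) ⁻¹ᵁ U) (a : Γ(Z, U)) :
    f.appLE V W e₂ (g.appLE U V e₁ a) = (f ≫ g).appLE U W e₃ a := by
  rw [← CommRingCat.comp_apply, Scheme.Hom.appLE_comp_appLE]

/-- the value of the section `ε_B` on `B ⊗ S` -/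
theorem rigSection_mu (ε : SchemeHomOver (𝟙 (Spec (CommRingCat.of k))) c)
    (h : ε.1 ⁻¹ᵁ U = ⊤) (ev : S →+* k)
    (hev : ∀ a, ε.1.appLE U ⊤ h.ge (σ a) = (Scheme.ΓSpecIso (CommRingCat.of k)).inv (ev a))
    (hevk : ev.comp (algebraMap k S) = RingHom.id k)
    (x : B ⊗[k] S) :
    (rigSection c (sB k B) ε).appLE (pr c B ⁻¹ᵁ U) ⊤ (rigSection_preimage c B ε h).ge
      (mu (w_B c B) U σ hσ x) = (Scheme.ΓSpecIso (CommRingCat.of B)).inv
        (tlift (RingHom.id B) ((algebraMap k B).comp ev) (by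
          rw [RingHom.comp_assoc, hevk]; rfl) x) := by
  have key : ((rigSection c (sB k B) ε).appLE (pr c B ⁻¹ᵁ U) ⊤
      (rigSection_preimage c B ε h).ge).hom.comp (mu (w_B c B) U σ hσ) =
      (Scheme.ΓSpecIso (CommRingCat.of B)).inv.hom.comp
        (tlift (RingHom.id B) ((algebraMap k B).comp ev) (by
          rw [RingHom.comp_assoc, hevk]; rfl)) := by
    apply tensor_ringHom_ext
    · intro b
      simp only [RingHom.comp_apply]
      rw [mu_tmul, map_one, map_one, mul_one, tlift_tmul, map_one, mul_one]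
      refine (appLE_sSec _ _ _ _ _ b).trans ?_
      have h1 : rigSection c (sB k B) ε ≫ qr c B = 𝟙 _ := pullback.lift_snd _ _ _
      rw [h1]
      have h2 : CommRingCat.ofHom (sSec (𝟙 (Spec (CommRingCat.of B))) ⊤) =
          (Scheme.ΓSpecIso (CommRingCat.of B)).inv := by
        rw [ofHom_sSec, Scheme.Hom.id_appTop, Category.id_comp]
        exact Category.comp_id _
      exact congrArg (fun f : CommRingCat.of B ⟶ _ => f.hom b) h2
    · intro s
      simp only [RingHom.comp_apply]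
      rw [mu_tmul, map_one, one_mul, tlift_tmul, map_one, one_mul]
      have h1 : rigSection c (sB k B) ε ≫ pr c B = sB k B ≫ ε.1 := pullback.lift_fst _ _ _
      have e1 : (⊤ : (Spec (CommRingCat.of B)).Opens) ≤
          (rigSection c (sB k B) ε ≫ pr c B) ⁻¹ᵁ U := by
        rw [Scheme.Hom.comp_preimage]
        exact (rigSection_preimage c B ε h).ge
      have e2 : (⊤ : (Spec (CommRingCat.of B)).Opens) ≤ (sB k B ≫ ε.1) ⁻¹ᵁ U := by
        rw [← h1]; exact e1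
      have h2 : (rigSection c (sB k B) ε).appLE (pr c B ⁻¹ᵁ U) ⊤
          (rigSection_preimage c B ε h).ge ((pr c B).app U (σ s)) =
          (rigSection c (sB k B) ε ≫ pr c B).appLE U ⊤ e1 (σ s) := by
        rw [← Scheme.Hom.appLE_eq_app]
        exact appLE_appLE _ _ _ _ _ _
      refine h2.trans ?_
      rw [appLE_congr_hom h1 e1]
      have h3 := appLE_appLE (sB k B) ε.1 (U := U) (V := ⊤) (W := ⊤) h.ge le_top e2 (σ s)
      rw [← h3, hev]
      have h4 := Scheme.ΓSpecIso_inv_naturality (CommRingCat.ofHom (algebraMap k B))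
      have h5 := congrArg (fun f : CommRingCat.of k ⟶ _ => f.hom (ev s)) h4
      refine Eq.trans ?_ h5.symm
      have h6 : (sB k B).appLE ⊤ ⊤ le_top = (sB k B).appTop := Scheme.Hom.appLE_eq_app (sB k B)
      rw [h6]
      rfl
  exact DFunLike.congr_fun key x

theorem pr_basicOpen (a : S) : pr c B ⁻¹ᵁ (C.basicOpen (σ a)) =
    (CB c B).basicOpen (mu (w_B c B) U σ hσ (1 ⊗ₜ a)) := by
  rw [mu_tmul, map_one, one_mul]
  exact Scheme.preimage_basicOpen _ _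

/-- naturality in `B` -/
theorem mu_baseChangeSnd {B' : Type u} [CommRing B'] [Algebra k B'] (φ : B →ₐ[k] B')
    (ψ : SchemeHomOver (sB k B') (sB k B))
    (hψ : ψ.1 = Spec.map (CommRingCat.ofHom φ.toRingHom))
    (e : pr c B' ⁻¹ᵁ U ≤ baseChangeSnd c ψ ⁻¹ᵁ pr c B ⁻¹ᵁ U) (x : B ⊗[k] S) :
    (baseChangeSnd c ψ).appLE (pr c B ⁻¹ᵁ U) (pr c B' ⁻¹ᵁ U) e (mu (w_B c B) U σ hσ x) =
      mu (w_B c B') U σ hσ (Algebra.TensorProduct.map φ (AlgHom.id k S) x) := by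
  refine mu_base (w_B c B) U σ hσ (w_B c B') φ (baseChangeSnd c ψ) ?_ ?_ e x
  · exact (pullback.lift_fst _ _ _).trans (Category.comp_id _)
  · rw [← hψ]
    exact pullback.lift_snd _ _ _

theorem baseChangeSnd_preimage {B' : Type u} [CommRing B'] [Algebra k B']
    (ψ : SchemeHomOver (sB k B') (sB k B)) (U : C.Opens) :
    baseChangeSnd c ψ ⁻¹ᵁ pr c B ⁻¹ᵁ U = pr c B' ⁻¹ᵁ U := by
  rw [← Scheme.Hom.comp_preimage]
  have h1 : baseChangeSnd c ψ ≫ pr c B = pr c B' :=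
    (pullback.lift_fst _ _ _).trans (Category.comp_id _)
  rw [h1]

end General

namespace Chart

variable {k : Type u} [Field k] {C : Scheme.{u}} {c : C ⟶ Spec (CommRingCat.of k)}
  {ε : SchemeHomOver (𝟙 (Spec (CommRingCat.of k))) c} {X : TwoChart k} (h : Chart c ε X)

theorem hW : IsAffineOpen (h.U ⊓ h.V) := by
  rw [h.basic0]
  exact h.hU.basicOpen _

variable (B : Type u) [CommRing B] [Algebra k B]

/-- the charts of `C_B` -/
def UB : (CB c B).Opens := pr c B ⁻¹ᵁ h.U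

/-- the charts of `C_B` -/
def VB : (CB c B).Opens := pr c B ⁻¹ᵁ h.V

theorem hUB : IsAffineOpen (h.UB B) := isAffineOpen_pr c B h.hU

theorem hVB : IsAffineOpen (h.VB B) := isAffineOpen_pr c B h.hV

theorem hWB : IsAffineOpen (h.UB B ⊓ h.VB B) := isAffineOpen_pr c B h.hW

theorem covB : h.UB B ⊔ h.VB B = ⊤ := by
  have h1 : pr c B ⁻¹ᵁ (h.U ⊔ h.V) = ⊤ := by rw [h.cov]; rfl
  exact h1

/-- `B ⊗ A0 → Γ(C_B, U_B)` -/
def m0 : B ⊗[k] X.A0 →+* Γ(CB c B, h.UB B) := mu (w_B c B) h.U h.s0 h.s0_k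

/-- `B ⊗ A1 → Γ(C_B, V_B)` -/
def m1 : B ⊗[k] X.A1 →+* Γ(CB c B, h.VB B) := mu (w_B c B) h.V h.s1 h.s1_k

/-- `B ⊗ A → Γ(C_B, U_B ∩ V_B)` -/
def mW : B ⊗[k] X.A →+* Γ(CB c B, h.UB B ⊓ h.VB B) := mu (w_B c B) (h.U ⊓ h.V) h.s h.s_k

theorem m0_bijective : Function.Bijective (h.m0 B) :=
  mu_bijective _ _ h.s0_k (isPullback_B c B) h.hU h.s0_bij

theorem m1_bijective : Function.Bijective (h.m1 B) :=
  mu_bijective _ _ h.s1_k (isPullback_B c B) h.hV h.s1_bij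

theorem mW_bijective : Function.Bijective (h.mW B) :=
  mu_bijective _ _ h.s_k (isPullback_B c B) h.hW h.s_bij

/-- restriction `U_B → U_B ∩ V_B` -/
theorem m0_res (x : B ⊗[k] X.A0) :
    (CB c B).presheaf.map (homOfLE (inf_le_left : h.UB B ⊓ h.VB B ≤ h.UB B)).op (h.m0 B x) =
      h.mW B (Algebra.TensorProduct.map (AlgHom.id k B) X.A0.val x) :=
  mu_res (w_B c B) h.U h.s0 h.s0_k h.s h.s_k (homOfLE inf_le_left) X.A0.val h.s0_res x

/-- restriction `V_B → U_B ∩ V_B` -/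
theorem m1_res (x : B ⊗[k] X.A1) :
    (CB c B).presheaf.map (homOfLE (inf_le_right : h.UB B ⊓ h.VB B ≤ h.VB B)).op (h.m1 B x) =
      h.mW B (Algebra.TensorProduct.map (AlgHom.id k B) X.A1.val x) :=
  mu_res (w_B c B) h.V h.s1 h.s1_k h.s h.s_k (homOfLE inf_le_right) X.A1.val h.s1_res x

theorem basic0_B : h.UB B ⊓ h.VB B =
    (CB c B).basicOpen (h.m0 B (1 ⊗ₜ ⟨(X.t : X.A), X.t_mem⟩)) := by
  have h1 := pr_basicOpen (B := B) c h.s0 h.s0_k ⟨(X.t : X.A), X.t_mem⟩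
  rw [← h.basic0] at h1
  exact h1

theorem basic1_B : h.UB B ⊓ h.VB B =
    (CB c B).basicOpen (h.m1 B (1 ⊗ₜ ⟨((X.t⁻¹ : X.Aˣ) : X.A), X.tinv_mem⟩)) := by
  have h1 := pr_basicOpen (B := B) c h.s1 h.s1_k ⟨((X.t⁻¹ : X.Aˣ) : X.A), X.tinv_mem⟩
  rw [← h.basic1] at h1
  exact h1

/-- `ε_B` factors through `U_B` -/
theorem rig_preimage : rigSection c (sB k B) ε ⁻¹ᵁ h.UB B = ⊤ :=
  rigSection_preimage c B ε h.mem_U

/-- `ε_B` on `B ⊗ A0` is `b ⊗ a ↦ b * ev a` -/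
theorem rig_m0 (x : B ⊗[k] X.A0) :
    (rigSection c (sB k B) ε).appLE (h.UB B) ⊤ (h.rig_preimage B).ge (h.m0 B x) =
      (Scheme.ΓSpecIso (CommRingCat.of B)).inv
        (Algebra.TensorProduct.lift (AlgHom.id B B) ((Algebra.ofId k B).comp X.ev)
          (fun _ _ => mul_comm _ _) x) := by
  refine (rigSection_mu c h.s0 h.s0_k ε h.mem_U X.ev.toRingHom h.ev_spec
    (by ext; simp) x).trans ?_
  congr 1

variable {B} {B' : Type u} [CommRing B'] [Algebra k B'] (φ : B →ₐ[k] B')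
  (ψ : SchemeHomOver (sB k B') (sB k B))

include ψ in
theorem ψ_UB : baseChangeSnd c ψ ⁻¹ᵁ h.UB B = h.UB B' := baseChangeSnd_preimage c ψ h.U

theorem ψ_VB : baseChangeSnd c ψ ⁻¹ᵁ h.VB B = h.VB B' := baseChangeSnd_preimage c ψ h.V

theorem ψ_WB : baseChangeSnd c ψ ⁻¹ᵁ (h.UB B ⊓ h.VB B) = h.UB B' ⊓ h.VB B' :=
  baseChangeSnd_preimage c ψ (h.U ⊓ h.V)

variable (hψ : ψ.1 = Spec.map (CommRingCat.ofHom φ.toRingHom))

include hψ

theorem m0_base (x : B ⊗[k] X.A0) :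
    (baseChangeSnd c ψ).appLE (h.UB B) (h.UB B') (h.ψ_UB ψ).ge (h.m0 B x) =
      h.m0 B' (Algebra.TensorProduct.map φ (AlgHom.id k X.A0) x) :=
  mu_baseChangeSnd c h.s0 h.s0_k φ ψ hψ _ x

theorem m1_base (x : B ⊗[k] X.A1) :
    (baseChangeSnd c ψ).appLE (h.VB B) (h.VB B') (h.ψ_VB ψ).ge (h.m1 B x) =
      h.m1 B' (Algebra.TensorProduct.map φ (AlgHom.id k X.A1) x) :=
  mu_baseChangeSnd c h.s1 h.s1_k φ ψ hψ _ x

theorem mW_base (x : B ⊗[k] X.A) :
    (baseChangeSnd c ψ).appLE (h.UB B ⊓ h.VB B) (h.UB B' ⊓ h.VB B') (h.ψ_WB ψ).ge (h.mW B x) =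
      h.mW B' (Algebra.TensorProduct.map φ (AlgHom.id k X.A) x) :=
  mu_baseChangeSnd c h.s h.s_k φ ψ hψ _ x

end Chart

end Fermat.Agent.JCB

end
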